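import Fermat.Agent.CFT.Local.PadicAlgCl

/-!
# S56, block (a3) `Flat`, leaf `TameChar` (TI): norm lemmas in `Ω = PadicAlgCl p`

* `Moves τ x : ‖τ x - x‖ < ‖x‖` ("`τ x / x ≡ 1` modulo the open unit ball"): closed under products,
  inverses, integer powers; holds for every `x` of norm one when `τ` is in inertia; depends only
  on `‖x‖` for `τ` in inertia.
* roots of unity of order prime to `p`: they are determined by their class modulo the open unit
  ball (`eq_of_pow_eq_one_of_norm_sub_lt`); those fixed by the whole local Galois group are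
  `(p-1)`-th roots of unity (`pow_pred_eq_one_of_fixed`).
* `norm_zeta_sub_one_pow` : `‖ζ - 1‖ ^ (p - 1) = p⁻¹` for a primitive `p`-th root of unity `ζ`.
* `exists_norm_eq_zpow_of_fixed` : a non-zero element fixed by inertia has norm in `p ^ ℤ`.
* `exists_uniformizer_norm` : the value group of a finite subextension is `‖ϖ₀‖ ^ ℤ`.
-/

set_option autoImplicit false

noncomputable section

namespace Fermat.Agent.S56.Flat.TameChar.Basic

open Fermat.Agent.CFT.LocalBridge Fermat.Agent.CFT.Local.PadicAlgClLocal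
  Fermat.Agent.CFT.Local.Model

variable {p : ℕ} [Fact p.Prime]

local notation "Ω" => PadicAlgCl p

/-! ### Ultrametric bookkeeping -/

theorem norm_add_lt {a b : Ω} {r : ℝ} (ha : ‖a‖ < r) (hb : ‖b‖ < r) : ‖a + b‖ < r :=
  lt_of_le_of_lt (IsUltrametricDist.norm_add_le_max a b) (max_lt ha hb)

theorem norm_sub_lt {a b : Ω} {r : ℝ} (ha : ‖a‖ < r) (hb : ‖b‖ < r) : ‖a - b‖ < r := by
  rw [sub_eq_add_neg]
  exact norm_add_lt ha (by rwa [norm_neg])

/-- If `‖a - b‖ < ‖b‖` then `‖a‖ = ‖b‖`. -/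
theorem norm_eq_of_sub_lt {a b : Ω} (h : ‖a - b‖ < ‖b‖) : ‖a‖ = ‖b‖ := by
  have h1 : ‖a‖ ≤ ‖b‖ := by
    have : a = (a - b) + b := by ring
    rw [this]
    exact (IsUltrametricDist.norm_add_le_max _ _).trans (max_le h.le le_rfl)
  rcases lt_or_eq_of_le h1 with hlt | heq
  · exfalso
    have : ‖b‖ < ‖b‖ := by
      have hb : b = a - (a - b) := by ring
      calc ‖b‖ = ‖a - (a - b)‖ := by rw [← hb]
        _ < ‖b‖ := norm_sub_lt hlt h
    exact lt_irrefl _ this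
  · exact heq

theorem norm_natCast_le_one (n : ℕ) : ‖(n : Ω)‖ ≤ 1 := by
  rw [← map_natCast (algebraMap ℚ_[p] Ω), PadicAlgCl.norm_extends]
  exact_mod_cast Padic.norm_int_le_one (p := p) (n : ℤ)

/-! ### `Moves τ x` -/

/-- `τ x ≡ x` modulo `x · (open unit ball)`. -/
def Moves (τ : LocGal p) (x : Ω) : Prop := ‖τ x - x‖ < ‖x‖

theorem Moves.ne_zero {τ : LocGal p} {x : Ω} (h : Moves τ x) : x ≠ 0 := by
  intro h0
  rw [Moves, h0, map_zero, sub_zero, norm_zero] at h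
  exact lt_irrefl _ h

theorem moves_of_fixed {τ : LocGal p} {x : Ω} (h : τ x = x) (hx : x ≠ 0) : Moves τ x := by
  rw [Moves, h, sub_self, norm_zero]
  exact norm_pos_iff.mpr hx

theorem Moves.mul {τ : LocGal p} {x y : Ω} (hx : Moves τ x) (hy : Moves τ y) :
    Moves τ (x * y) := by
  have h : τ (x * y) - x * y = (τ x - x) * τ y + x * (τ y - y) := by
    rw [map_mul]; ring
  rw [Moves, h, norm_mul x y]
  have hxpos : 0 < ‖x‖ := norm_pos_iff.mpr hx.ne_zero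
  have hypos : 0 < ‖y‖ := norm_pos_iff.mpr hy.ne_zero
  refine norm_add_lt ?_ ?_
  · rw [norm_mul, norm_locGal_apply]
    exact mul_lt_mul_of_pos_right hx hypos
  · rw [norm_mul]
    exact mul_lt_mul_of_pos_left hy hxpos

theorem Moves.inv {τ : LocGal p} {x : Ω} (hx : Moves τ x) : Moves τ x⁻¹ := by
  have hx0 := hx.ne_zero
  have hτx0 : τ x ≠ 0 := fun h => hx0 ((map_eq_zero τ).mp h)
  have h : τ x⁻¹ - x⁻¹ = -(τ x - x) * ((τ x)⁻¹ * x⁻¹) := by
    rw [map_inv₀]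
    field_simp
    ring
  have hxpos : 0 < ‖x‖ := norm_pos_iff.mpr hx0
  rw [Moves, h, norm_mul, norm_neg, norm_mul, norm_inv, norm_inv, norm_locGal_apply]
  calc ‖τ x - x‖ * (‖x‖⁻¹ * ‖x‖⁻¹) < ‖x‖ * (‖x‖⁻¹ * ‖x‖⁻¹) :=
        mul_lt_mul_of_pos_right hx (by positivity)
    _ = ‖x‖⁻¹ := by field_simp

theorem moves_one (τ : LocGal p) : Moves τ (1 : Ω) :=
  moves_of_fixed (map_one τ) one_ne_zero

theorem Moves.pow {τ : LocGal p} {x : Ω} (hx : Moves τ x) (n : ℕ) : Moves τ (x ^ n) := by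
  induction n with
  | zero => rw [pow_zero]; exact moves_one τ
  | succ n ih => rw [pow_succ]; exact ih.mul hx

theorem Moves.zpow {τ : LocGal p} {x : Ω} (hx : Moves τ x) (n : ℤ) : Moves τ (x ^ n) := by
  cases n with
  | ofNat n => rw [Int.ofNat_eq_natCast, zpow_natCast]; exact hx.pow n
  | negSucc n => rw [zpow_negSucc]; exact (hx.pow (n + 1)).inv

theorem moves_of_norm_eq_one {τ : LocGal p} (hτ : τ ∈ localInertia p) {w : Ω} (hw : ‖w‖ = 1) :
    Moves τ w := by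
  rw [Moves, hw]
  exact hτ w hw.le

/-- For `τ` in inertia, `Moves τ x` only depends on `‖x‖`. -/
theorem Moves.of_norm_eq {τ : LocGal p} (hτ : τ ∈ localInertia p) {x y : Ω} (hx : Moves τ x)
    (hxy : ‖y‖ = ‖x‖) : Moves τ y := by
  have hx0 := hx.ne_zero
  have hxpos : 0 < ‖x‖ := norm_pos_iff.mpr hx0
  have hw : ‖y * x⁻¹‖ = 1 := by
    rw [norm_mul, norm_inv, hxy, mul_inv_cancel₀ hxpos.ne']
  have h : y = x * (y * x⁻¹) := by field_simp
  rw [h]
  exact hx.mul (moves_of_norm_eq_one hτ hw)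

/-- `Moves τ x` in quotient form: `‖τ x / x - 1‖ < 1`. -/
theorem moves_iff_div {τ : LocGal p} {x : Ω} (hx : x ≠ 0) :
    Moves τ x ↔ ‖τ x / x - 1‖ < 1 := by
  have hxpos : 0 < ‖x‖ := norm_pos_iff.mpr hx
  have h : τ x / x - 1 = (τ x - x) / x := by field_simp
  rw [Moves, h, norm_div, div_lt_one hxpos]

/-! ### Congruences modulo the open unit ball -/

theorem norm_mul_sub_mul_lt {a a' b b' : Ω} (ha : ‖a‖ ≤ 1) (hb' : ‖b'‖ ≤ 1)
    (h1 : ‖a - a'‖ < 1) (h2 : ‖b - b'‖ < 1) : ‖a * b - a' * b'‖ < 1 := by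
  have h : a * b - a' * b' = a * (b - b') + (a - a') * b' := by ring
  rw [h]
  refine norm_add_lt ?_ ?_
  · rw [norm_mul]
    calc ‖a‖ * ‖b - b'‖ ≤ 1 * ‖b - b'‖ := mul_le_mul_of_nonneg_right ha (norm_nonneg _)
      _ = ‖b - b'‖ := one_mul _
      _ < 1 := h2
  · rw [norm_mul]
    calc ‖a - a'‖ * ‖b'‖ ≤ ‖a - a'‖ * 1 := mul_le_mul_of_nonneg_left hb' (norm_nonneg _)
      _ = ‖a - a'‖ := mul_one _
      _ < 1 := h1

theorem norm_pow_sub_pow_lt {a b : Ω} (ha : ‖a‖ ≤ 1) (hb : ‖b‖ ≤ 1) (h : ‖a - b‖ < 1) (n : ℕ) :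
    ‖a ^ n - b ^ n‖ < 1 := by
  induction n with
  | zero => simp
  | succ n ih =>
    rw [pow_succ, pow_succ]
    exact norm_mul_sub_mul_lt (by rw [norm_pow]; exact pow_le_one₀ (norm_nonneg _) ha) hb ih h

/-! ### Roots of unity of order prime to `p` -/

/-- Two roots of unity of order prime to `p` which are congruent modulo the open unit ball are
equal. -/
theorem eq_of_pow_eq_one_of_norm_sub_lt {n n' : ℕ} (hn : ¬ p ∣ n) (hn' : ¬ p ∣ n')
    {t t' : Ω} (ht : t ^ n = 1) (ht' : t' ^ n' = 1) (h : ‖t - t'‖ < 1) : t = t' := by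
  by_contra hne
  have hnn : ¬ p ∣ n * n' := fun hd =>
    ((Fact.out : p.Prime).dvd_mul.mp hd).elim hn hn'
  have h1 : t ^ (n * n') = 1 := by rw [pow_mul, ht, one_pow]
  have h2 : t' ^ (n * n') = 1 := by rw [mul_comm, pow_mul, ht', one_pow]
  have := norm_sub_eq_one_of_pow_eq_one p hnn h1 h2 hne
  rw [this] at h
  exact lt_irrefl _ h

/-- A root of unity of order prime to `p` in `ℚ_p` is a `(p-1)`-th root of unity. -/
theorem pow_pred_eq_one_of_mem_range {n : ℕ} (hn : ¬ p ∣ n) {t : Ω} (ht : t ^ n = 1)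
    (hmem : t ∈ Set.range (algebraMap ℚ_[p] Ω)) : t ^ (p - 1) = 1 := by
  obtain ⟨a, rfl⟩ := hmem
  have hn0 : n ≠ 0 := fun h0 => hn (h0 ▸ dvd_zero p)
  have ha1 : ‖a‖ = 1 := by
    have := norm_eq_one_of_pow_eq_one p hn0 ht
    rwa [PadicAlgCl.norm_extends] at this
  let a' : ℤ_[p] := ⟨a, ha1.le⟩
  have ha'1 : ‖a'‖ = 1 := ha1
  have hz : PadicInt.toZMod a' ≠ 0 := by
    intro h0
    have : a' ∈ RingHom.ker (PadicInt.toZMod (p := p)) := h0
    rw [PadicInt.ker_toZMod, IsLocalRing.mem_maximalIdeal, PadicInt.mem_nonunits] at this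
    rw [ha'1] at this
    exact lt_irrefl _ this
  have hz1 : PadicInt.toZMod (a' ^ (p - 1) - 1) = 0 := by
    rw [map_sub, map_pow, map_one, ZMod.pow_card_sub_one_eq_one hz, sub_self]
  have hlt : ‖a' ^ (p - 1) - 1‖ < 1 := by
    have : a' ^ (p - 1) - 1 ∈ RingHom.ker (PadicInt.toZMod (p := p)) := hz1
    rwa [PadicInt.ker_toZMod, IsLocalRing.mem_maximalIdeal, PadicInt.mem_nonunits] at this
  have hlt' : ‖(algebraMap ℚ_[p] Ω a) ^ (p - 1) - 1‖ < 1 := by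
    have h1 : (algebraMap ℚ_[p] Ω a) ^ (p - 1) - 1 = algebraMap ℚ_[p] Ω (a ^ (p - 1) - 1) := by
      rw [map_sub, map_pow, map_one]
    rw [h1, PadicAlgCl.norm_extends]
    exact hlt
  by_contra hne
  have h2 : ((algebraMap ℚ_[p] Ω a) ^ (p - 1)) ^ n = 1 := by
    rw [← pow_mul, mul_comm, pow_mul, ht, one_pow]
  have := norm_sub_one_eq_one p hn h2 hne
  rw [this] at hlt'
  exact lt_irrefl _ hlt'

/-- A root of unity of order prime to `p` which is fixed by the local Galois group is a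
`(p-1)`-th root of unity. -/
theorem pow_pred_eq_one_of_fixed {n : ℕ} (hn : ¬ p ∣ n) {t : Ω} (ht : t ^ n = 1)
    (hfix : ∀ γ : LocGal p, γ t = t) : t ^ (p - 1) = 1 :=
  pow_pred_eq_one_of_mem_range hn ht ((InfiniteGalois.mem_range_algebraMap_iff_fixed t).2 hfix)

/-! ### The primitive `p`-th root of unity -/

theorem norm_p : ‖((p : ℕ) : Ω)‖ = (p : ℝ)⁻¹ := by
  have h1 : ((p : ℕ) : Ω) = algebraMap ℚ_[p] Ω (p : ℚ_[p]) := by rw [map_natCast]
  rw [h1, PadicAlgCl.norm_extends, Padic.norm_p]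

theorem norm_one_sub_pow_le (ζ : Ω) (hζ : ‖ζ‖ ≤ 1) (k : ℕ) : ‖1 - ζ ^ k‖ ≤ ‖1 - ζ‖ := by
  have h : 1 - ζ ^ k = (1 - ζ) * ∑ i ∈ Finset.range k, ζ ^ i := by
    rw [mul_comm, geom_sum_mul_neg]
  rw [h, norm_mul]
  have hs : ‖∑ i ∈ Finset.range k, ζ ^ i‖ ≤ 1 := by
    have : ∀ s : Finset ℕ, ‖∑ i ∈ s, ζ ^ i‖ ≤ 1 := by
      intro s
      induction s using Finset.induction_on with
      | empty => simp
      | insert a s ha ih =>
        rw [Finset.sum_insert ha]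
        refine (IsUltrametricDist.norm_add_le_max _ _).trans (max_le ?_ ih)
        rw [norm_pow]
        exact pow_le_one₀ (norm_nonneg _) hζ
    exact this _
  calc ‖1 - ζ‖ * ‖∑ i ∈ Finset.range k, ζ ^ i‖ ≤ ‖1 - ζ‖ * 1 :=
        mul_le_mul_of_nonneg_left hs (norm_nonneg _)
    _ = ‖1 - ζ‖ := mul_one _

/-- `‖ζ - 1‖ ^ (p - 1) = p⁻¹` for a primitive `p`-th root of unity. -/
theorem norm_zeta_sub_one_pow {ζ : Ω} (hζ : IsPrimitiveRoot ζ p) :
    ‖ζ - 1‖ ^ (p - 1) = (p : ℝ)⁻¹ := by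
  have hp : p.Prime := Fact.out
  have hp1 : p - 1 + 1 = p := Nat.sub_add_cancel hp.one_le
  have hζ' : IsPrimitiveRoot ζ (p - 1 + 1) := by rw [hp1]; exact hζ
  have hprod := hζ'.prod_one_sub_pow_eq_order
  have hζ1 : ‖ζ‖ = 1 := norm_eq_one_of_pow_eq_one p hp.ne_zero hζ.pow_eq_one
  have hnorm : ∀ k ∈ Finset.range (p - 1), ‖1 - ζ ^ (k + 1)‖ = ‖1 - ζ‖ := by
    intro k hk
    rw [Finset.mem_range] at hk
    refine le_antisymm (norm_one_sub_pow_le ζ hζ1.le (k + 1)) ?_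
    -- `ζ` is a power of `ζ ^ (k + 1)`
    have hcop : Nat.Coprime (k + 1) p := by
      rw [Nat.coprime_comm, hp.coprime_iff_not_dvd]
      intro hd
      have := Nat.le_of_dvd (Nat.succ_pos k) hd
      omega
    have hprim : IsPrimitiveRoot (ζ ^ (k + 1)) p := hζ.pow_of_coprime (k + 1) hcop
    obtain ⟨i, -, hi⟩ := hprim.eq_pow_of_pow_eq_one hζ.pow_eq_one
    have hk1 : ‖ζ ^ (k + 1)‖ ≤ 1 := by
      rw [norm_pow]; exact pow_le_one₀ (norm_nonneg _) hζ1.le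
    have := norm_one_sub_pow_le (ζ ^ (k + 1)) hk1 i
    rwa [hi] at this
  have h1 : ‖∏ k ∈ Finset.range (p - 1), (1 - ζ ^ (k + 1))‖ = ‖1 - ζ‖ ^ (p - 1) := by
    rw [norm_prod, Finset.prod_congr rfl hnorm, Finset.prod_const, Finset.card_range]
  rw [hprod] at h1
  have h2 : (((p - 1 : ℕ) : Ω) + 1) = ((p : ℕ) : Ω) := by
    rw [← Nat.cast_one (R := Ω), ← Nat.cast_add, hp1]
  rw [h2, norm_p] at h1
  rw [← norm_neg, neg_sub, ← h1]

theorem zeta_sub_one_ne_zero {ζ : Ω} (hζ : IsPrimitiveRoot ζ p) : ζ - 1 ≠ 0 := by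
  have hp : p.Prime := Fact.out
  exact sub_ne_zero.mpr (hζ.ne_one hp.one_lt)

/-! ### Values of elements fixed by inertia -/

/-- A non-zero element fixed by inertia has its norm in `p ^ ℤ`. -/
theorem exists_norm_eq_zpow_of_fixed {z : Ω} (hz : z ≠ 0)
    (hfix : ∀ τ ∈ localInertia p, τ z = z) : ∃ k : ℤ, ‖z‖ = (p : ℝ) ^ k := by
  have hmem : z ∈ nrField p := by
    rw [← InfiniteGalois.fixedField_fixingSubgroup (nrField p), ← localInertia_eq_fixingSubgroup]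
    rw [IntermediateField.mem_fixedField_iff]
    intro τ hτ
    exact hfix τ hτ
  obtain ⟨M, hM, hzM⟩ := exists_mem_cycField_of_mem_nrField p hmem
  have hM0 : M ≠ 0 := fun h0 => hM (h0 ▸ dvd_zero p)
  have := finiteDimensional_cycField p hM0
  exact (ramIdx_eq_one_iff_norm p (cycField p M)).mp (ramIdx_cycField_eq_one p hM) z hzM hz

/-! ### The value group of a finite subextension -/

/-- The value group of a finite subextension of `Ω / ℚ_p` is generated by the norm of a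
uniformiser. -/
theorem exists_uniformizer_norm (E : IntermediateField ℚ_[p] Ω) [FiniteDimensional ℚ_[p] E] :
    ∃ ϖ₀ ∈ E, 0 < ‖ϖ₀‖ ∧ ‖ϖ₀‖ < 1 ∧ ∀ x ∈ E, x ≠ 0 → ∃ k : ℤ, ‖x‖ = ‖ϖ₀‖ ^ k := by
  refine ⟨((ϖu p E : Eˣ) : E), ((ϖu p E : Eˣ) : E).2, ?_, ?_, ?_⟩
  · rw [← nrm_eq_norm]
    exact nrm_ϖu_pos p E
  · rw [← nrm_eq_norm]
    exact nrm_ϖu_lt_one p E
  · intro x hx hx0
    have hx0' : (⟨x, hx⟩ : E) ≠ 0 := fun h0 => hx0 (congrArg Subtype.val h0)
    refine ⟨ordFun p E (Units.mk0 ⟨x, hx⟩ hx0'), ?_⟩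
    have := nrm_eq_zpow_ordFun p E (Units.mk0 ⟨x, hx⟩ hx0')
    rw [Units.val_mk0, nrm_eq_norm, nrm_eq_norm] at this
    exact this

end Fermat.Agent.S56.Flat.TameChar.Basic
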