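import Fermat.Agent.S56.Flat.TameChar.Tame

/-!
# S56, block (a3) `Flat`, leaf `TameChar` (TI): tame abelian characters of `Gal(Ω/ℚ_p)`

* `map_eq_one_of_fixes_zeta` **(T)** : `Ψ : LocGal p →* B`, `B` commutative of exponent prime to
  `p`, `E` the (finite, normal) field cut out by `ker Ψ`, `ζ ∈ E` a primitive `p`-th root of
  unity: every element of inertia fixing `ζ` lies in `ker Ψ`.
* `exists_unramified_trivializing` **(TI)** : `χ : LocGal p →* A` with open kernel, `A` finite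
  commutative of order prime to `p`: there is a finite unramified `K' / ℚ_p` of degree prime to
  `p` such that `χ` is trivial on `Gal(Ω / K'(ζ_p))`.
-/

set_option autoImplicit false

noncomputable section

namespace Fermat.Agent.S56.Flat.TameChar.Main

open Fermat.Agent.CFT.LocalBridge Fermat.Agent.CFT.Local.PadicAlgClLocal
  Fermat.Agent.S56.Flat.TameChar.Basic Fermat.Agent.S56.Flat.TameChar.Tame IntermediateField

variable {p : ℕ} [Fact p.Prime]

local notation "Ω" => PadicAlgCl p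

/-- A normal subextension is stable under the Galois group. -/
theorem apply_mem_of_normal (E : IntermediateField ℚ_[p] Ω) [Normal ℚ_[p] E] (γ : LocGal p)
    {x : Ω} (hx : x ∈ E) : γ x ∈ E := by
  have h := (IntermediateField.normal_iff_forall_map_le' (K := E)).mp inferInstance γ
  exact h ⟨x, hx, rfl⟩

/-- **(T).** -/
theorem map_eq_one_of_fixes_zeta {B : Type*} [CommGroup B] (Ψ : LocGal p →* B) {m' : ℕ}
    (hm' : ¬ p ∣ m') (hB : ∀ b : B, b ^ m' = 1)
    (E : IntermediateField ℚ_[p] Ω) [FiniteDimensional ℚ_[p] E] [Normal ℚ_[p] E]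
    (hEN : ∀ n ∈ Ψ.ker, ∀ x ∈ E, n x = x) (hNE : E.fixingSubgroup ≤ Ψ.ker)
    {ζ : Ω} (hζ : IsPrimitiveRoot ζ p)
    {τ : LocGal p} (hτ : τ ∈ localInertia p) (hτζ : τ ζ = ζ) : Ψ τ = 1 := by
  have hp : p.Prime := Fact.out
  have hp1 : p - 1 ≠ 0 := Nat.sub_ne_zero_of_lt hp.one_lt
  have hEst : ∀ (γ : LocGal p), ∀ x ∈ E, γ x ∈ E := fun γ x hx => apply_mem_of_normal E γ hx
  -- conjugation does not change the action on `E`
  have hcomm : ∀ τ' : LocGal p, ∀ (γ : LocGal p), ∀ x ∈ E, (γ * τ' * γ⁻¹) x = τ' x := by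
    intro τ' γ x hx
    have hmem : τ'⁻¹ * (γ * τ' * γ⁻¹) ∈ Ψ.ker := by
      rw [MonoidHom.mem_ker, map_mul, map_mul, map_mul, map_inv, map_inv]
      rw [mul_comm (Ψ γ) (Ψ τ'), mul_assoc, mul_inv_cancel, mul_one, inv_mul_cancel]
    have h1 := hEN _ hmem x hx
    have h2 : (γ * τ' * γ⁻¹) x = τ' ((τ'⁻¹ * (γ * τ' * γ⁻¹)) x) := by
      rw [← AlgEquiv.mul_apply, ← mul_assoc, mul_inv_cancel, one_mul]
    rw [h2, h1]
  -- every element has order dividing `m'` on `E`
  have hpow : ∀ τ' : LocGal p, ∀ x ∈ E, (τ' ^ m') x = x := by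
    intro τ' x hx
    refine hEN _ ?_ x hx
    rw [MonoidHom.mem_ker, map_pow, hB]
  obtain ⟨ϖ₀, hϖE, hϖpos, hϖlt, hval⟩ := exists_uniformizer_norm E
  have hϖ0 : ϖ₀ ≠ 0 := norm_pos_iff.mp hϖpos
  -- Step A: the tame character has values in `μ_{p-1}`
  have hA : ∀ τ' ∈ localInertia p, Moves τ' (ϖ₀ ^ (p - 1)) := fun τ' hτ' =>
    moves_pow_pred E hEst hτ' (hcomm τ') hϖE hϖ0
  -- Step C: `‖ϖ₀‖ ^ (p - 1)` is a power of `p`
  obtain ⟨k, hk⟩ := exists_norm_eq_zpow_of_moves E hm' (fun τ' _ => hpow τ')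
    (pow_mem hϖE (p - 1)) hA
  -- compare with `ζ - 1`
  have hlam := norm_zeta_sub_one_pow hζ
  have hlam0 := zeta_sub_one_ne_zero hζ
  have hlampos : 0 < ‖ζ - 1‖ := norm_pos_iff.mpr hlam0
  have hnorm : ‖ϖ₀‖ = ‖(ζ - 1) ^ (-k)‖ := by
    have h1 : ‖ϖ₀‖ ^ (p - 1) = (‖(ζ - 1) ^ (-k)‖) ^ (p - 1) := by
      rw [← norm_pow ϖ₀, hk, norm_zpow, ← zpow_natCast (‖ζ - 1‖ ^ (-k)), ← zpow_mul,
        mul_comm, zpow_mul, zpow_natCast, hlam, inv_zpow', neg_neg]
    exact (pow_left_inj₀ (norm_nonneg _) (norm_nonneg _) hp1).mp h1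
  have hmovlam : Moves τ (ζ - 1) :=
    moves_of_fixed (by rw [map_sub, hτζ, map_one]) hlam0
  have hmovϖ : Moves τ ϖ₀ := (hmovlam.zpow (-k)).of_norm_eq hτ hnorm
  -- Step B: `τ` acts trivially on `E`
  have htriv := eq_of_moves_uniformizer E (fun x _ hx1 => moves_of_norm_eq_one hτ hx1) (hEst τ)
    hϖE hval hmovϖ hm' (hpow τ)
  have hmem : τ ∈ E.fixingSubgroup := by
    rw [IntermediateField.mem_fixingSubgroup_iff]
    exact htriv
  exact MonoidHom.mem_ker.mp (hNE hmem)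

/-! ### The field cut out by an open normal subgroup -/

section FixedField

theorem fixedField_le_of_fixingSubgroup_le (N : Subgroup (LocGal p))
    (E₁ : IntermediateField ℚ_[p] Ω) (hE₁ : E₁.fixingSubgroup ≤ N) :
    IntermediateField.fixedField N ≤ E₁ := by
  exact (IntermediateField.fixedField_antitone hE₁).trans
    (InfiniteGalois.fixedField_fixingSubgroup E₁).le

theorem finiteDimensional_of_le {E E' : IntermediateField ℚ_[p] Ω} [FiniteDimensional ℚ_[p] E']
    (h : E ≤ E') : FiniteDimensional ℚ_[p] E :=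
  Module.Finite.of_injective (IntermediateField.inclusion h).toLinearMap
    (IntermediateField.inclusion_injective h)

theorem normal_fixedField (N : Subgroup (LocGal p)) [N.Normal] :
    Normal ℚ_[p] (IntermediateField.fixedField N) := by
  rw [IntermediateField.normal_iff_forall_map_le']
  rintro σ _ ⟨x, hx, rfl⟩
  change x ∈ IntermediateField.fixedField N at hx
  rw [IntermediateField.mem_fixedField_iff] at hx
  change σ x ∈ IntermediateField.fixedField N
  rw [IntermediateField.mem_fixedField_iff]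
  intro n hn
  have h1 : σ⁻¹ * n * σ ∈ N := by
    have := ‹N.Normal›.conj_mem n hn σ⁻¹
    rwa [inv_inv] at this
  have h2 := hx _ h1
  have h3 : n (σ x) = σ ((σ⁻¹ * n * σ) x) := by
    rw [AlgEquiv.mul_apply, AlgEquiv.mul_apply]
    change n (σ x) = σ (σ.symm (n (σ x)))
    rw [σ.apply_symm_apply]
  change n (σ x) = σ x
  rw [h3, h2]

theorem fixingSubgroup_fixedField_of_le (N : Subgroup (LocGal p))
    (E₁ : IntermediateField ℚ_[p] Ω) [FiniteDimensional ℚ_[p] E₁]
    (hE₁ : E₁.fixingSubgroup ≤ N) :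
    (IntermediateField.fixedField N).fixingSubgroup = N := by
  have hopen : IsOpen (N : Set (LocGal p)) :=
    Subgroup.isOpen_mono hE₁ (IntermediateField.fixingSubgroup_isOpen E₁)
  have hclosed : IsClosed (N : Set (LocGal p)) := Subgroup.isClosed_of_isOpen N hopen
  exact InfiniteGalois.fixingSubgroup_fixedField (⟨N, hclosed⟩ : ClosedSubgroup (LocGal p))

end FixedField

/-! ### The export -/

/-- An automorphism fixing `ζ` has trivial cyclotomic character. -/
theorem autToPow_eq_one_of_fixed [NeZero p] {ζ : Ω} (hζ : IsPrimitiveRoot ζ p) {σ : LocGal p}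
    (hσ : σ ζ = ζ) : hζ.autToPow ℚ_[p] σ = 1 := by
  have hp : p.Prime := Fact.out
  have : Fact (1 < p) := ⟨hp.one_lt⟩
  have h := hζ.autToPow_spec ℚ_[p] σ
  rw [hσ] at h
  have h1 : ((hζ.autToPow ℚ_[p] σ : (ZMod p)ˣ) : ZMod p).val = 1 := by
    refine hζ.pow_inj (ZMod.val_lt _) hp.one_lt ?_
    rw [h, pow_one]
  apply Units.ext
  rw [Units.val_one, ← ZMod.natCast_zmod_val ((hζ.autToPow ℚ_[p] σ : (ZMod p)ˣ) : ZMod p), h1,
    Nat.cast_one]

/-- An automorphism with trivial cyclotomic character fixes `ζ`. -/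
theorem fixed_of_autToPow_eq_one [NeZero p] {ζ : Ω} (hζ : IsPrimitiveRoot ζ p) {σ : LocGal p}
    (hσ : hζ.autToPow ℚ_[p] σ = 1) : σ ζ = ζ := by
  have hp : p.Prime := Fact.out
  have : Fact (1 < p) := ⟨hp.one_lt⟩
  have h := hζ.autToPow_spec ℚ_[p] σ
  rw [hσ, Units.val_one, ZMod.val_one, pow_one] at h
  exact h.symm

/-- **(TI).**  Every character of `Gal(Ω/ℚ_p)` with open kernel and values in a finite commutative
group of order prime to `p` is trivial on `Gal(Ω / K'(ζ_p))` for a finite unramified extension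
`K' / ℚ_p` of degree prime to `p`. -/
theorem exists_unramified_trivializing {A : Type*} [CommGroup A] [Finite A]
    (hA : ¬ p ∣ Nat.card A) (χ : LocGal p →* A)
    (E₀ : IntermediateField ℚ_[p] Ω) [FiniteDimensional ℚ_[p] E₀]
    (hE₀ : E₀.fixingSubgroup ≤ χ.ker) {ζ : Ω} (hζ : IsPrimitiveRoot ζ p) :
    ∃ K' : IntermediateField ℚ_[p] Ω, FiniteDimensional ℚ_[p] K' ∧ K' ≤ nrField p ∧
      ¬ p ∣ Module.finrank ℚ_[p] K' ∧ (K' ⊔ ℚ_[p]⟮ζ⟯).fixingSubgroup ≤ χ.ker := by
  classical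
  have hp : p.Prime := Fact.out
  have : NeZero p := ⟨hp.ne_zero⟩
  -- the character `Ψ = (χ, ω)`
  let ω : LocGal p →* (ZMod p)ˣ := hζ.autToPow ℚ_[p]
  let Ψ : LocGal p →* A × (ZMod p)ˣ := χ.prod ω
  set m' : ℕ := Nat.card A * (p - 1) with hm'def
  have hm' : ¬ p ∣ m' := by
    intro hd
    rcases hp.dvd_mul.mp hd with h | h
    · exact hA h
    · have := Nat.le_of_dvd (Nat.sub_pos_of_lt hp.one_lt) h
      have := hp.one_le
      omega
  have hB : ∀ b : A × (ZMod p)ˣ, b ^ m' = 1 := by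
    rintro ⟨a, u⟩
    rw [Prod.pow_mk, Prod.mk_eq_one]
    refine ⟨?_, ?_⟩
    · rw [hm'def, pow_mul, pow_card_eq_one', one_pow]
    · rw [hm'def, mul_comm, pow_mul, ZMod.units_pow_card_sub_one_eq_one, one_pow]
  have hker : ∀ σ : LocGal p, σ ∈ Ψ.ker ↔ χ σ = 1 ∧ ω σ = 1 := by
    intro σ
    rw [MonoidHom.mem_ker, MonoidHom.prod_apply, Prod.mk_eq_one]
  -- the field cut out by `ker Ψ`
  have hζint : IsIntegral ℚ_[p] ζ := (PadicAlgCl.isAlgebraic p).isAlgebraic ζ |>.isIntegral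
  have : FiniteDimensional ℚ_[p] ℚ_[p]⟮ζ⟯ := IntermediateField.adjoin.finiteDimensional hζint
  let E₁ : IntermediateField ℚ_[p] Ω := E₀ ⊔ ℚ_[p]⟮ζ⟯
  have hE₁ : E₁.fixingSubgroup ≤ Ψ.ker := by
    intro σ hσ
    rw [IntermediateField.mem_fixingSubgroup_iff] at hσ
    rw [hker]
    refine ⟨?_, ?_⟩
    · refine MonoidHom.mem_ker.mp (hE₀ ?_)
      rw [IntermediateField.mem_fixingSubgroup_iff]
      exact fun x hx => hσ x ((le_sup_left : E₀ ≤ E₁) hx)
    · refine autToPow_eq_one_of_fixed hζ (hσ ζ ((le_sup_right : ℚ_[p]⟮ζ⟯ ≤ E₁) ?_))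
      exact IntermediateField.mem_adjoin_simple_self ℚ_[p] ζ
  let E : IntermediateField ℚ_[p] Ω := IntermediateField.fixedField Ψ.ker
  have hEle : E ≤ E₁ := fixedField_le_of_fixingSubgroup_le Ψ.ker E₁ hE₁
  have : FiniteDimensional ℚ_[p] E := finiteDimensional_of_le hEle
  have : Normal ℚ_[p] E := normal_fixedField Ψ.ker
  have hEN : ∀ n ∈ Ψ.ker, ∀ x ∈ E, n x = x := by
    intro n hn x hx
    exact (IntermediateField.mem_fixedField_iff _ x).mp hx n hn
  have hNE : E.fixingSubgroup = Ψ.ker := fixingSubgroup_fixedField_of_le Ψ.ker E₁ hE₁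
  have hζE : ζ ∈ E := by
    rw [IntermediateField.mem_fixedField_iff]
    intro n hn
    exact fixed_of_autToPow_eq_one hζ ((hker n).mp hn).2
  have hpow : ∀ γ : LocGal p, ∀ x ∈ E, (γ ^ m') x = x := by
    intro γ x hx
    refine hEN _ ?_ x hx
    rw [MonoidHom.mem_ker, map_pow, hB]
  -- `Gal(E/ℚ_p)` has order prime to `p`
  have : IsGalois ℚ_[p] E := ⟨⟩
  have : Fintype (E ≃ₐ[ℚ_[p]] E) := Fintype.ofFinite _
  have hcardE : ¬ p ∣ Module.finrank ℚ_[p] E := by
    rw [← IsGalois.card_aut_eq_finrank, Nat.card_eq_fintype_card]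
    intro hdvd
    obtain ⟨g, hg⟩ := exists_prime_orderOf_dvd_card p hdvd
    obtain ⟨γ, rfl⟩ := AlgEquiv.restrictNormalHom_surjective (F := ℚ_[p]) (K₁ := E) Ω g
    have h1 : (AlgEquiv.restrictNormalHom E γ) ^ m' = 1 := by
      rw [← map_pow]
      apply AlgEquiv.ext
      intro x
      apply Subtype.ext
      rw [AlgEquiv.restrictNormalHom_apply, hpow γ _ x.2]
      rfl
    have h2 := orderOf_dvd_of_pow_eq_one h1
    rw [hg] at h2
    exact hm' h2
  -- the unramified part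
  refine ⟨E ⊓ nrField p, finiteDimensional_of_le inf_le_left, inf_le_right, ?_, ?_⟩
  · intro hd
    exact hcardE (hd.trans (IntermediateField.finrank_dvd_of_le_right inf_le_left))
  · intro σ hσ
    rw [IntermediateField.mem_fixingSubgroup_iff] at hσ
    have hσK : ∀ x ∈ E ⊓ nrField p, σ x = x := fun x hx =>
      hσ x ((le_sup_left : E ⊓ nrField p ≤ (E ⊓ nrField p) ⊔ ℚ_[p]⟮ζ⟯) hx)
    have hσζ : σ ζ = ζ :=
      hσ ζ ((le_sup_right : ℚ_[p]⟮ζ⟯ ≤ (E ⊓ nrField p) ⊔ ℚ_[p]⟮ζ⟯)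
        (IntermediateField.mem_adjoin_simple_self ℚ_[p] ζ))
    -- the image of inertia in `Gal(E/ℚ_p)`
    let H : Subgroup (E ≃ₐ[ℚ_[p]] E) := (localInertia p).map (AlgEquiv.restrictNormalHom E)
    have hσH : AlgEquiv.restrictNormalHom E σ ∈ H := by
      rw [← IntermediateField.fixingSubgroup_fixedField H,
        IntermediateField.mem_fixingSubgroup_iff]
      intro x hx
      rw [IntermediateField.mem_fixedField_iff] at hx
      apply Subtype.ext
      rw [AlgEquiv.restrictNormalHom_apply]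
      refine hσK _ (IntermediateField.mem_inf.mpr ⟨x.2, ?_⟩)
      -- `x` is fixed by inertia, hence lies in the maximal unramified extension
      rw [← InfiniteGalois.fixedField_fixingSubgroup (nrField p),
        ← localInertia_eq_fixingSubgroup, IntermediateField.mem_fixedField_iff]
      intro τ hτ
      have := hx (AlgEquiv.restrictNormalHom E τ) ⟨τ, hτ, rfl⟩
      rw [← AlgEquiv.restrictNormalHom_apply E τ x, this]
    obtain ⟨τ, hτ, hτσ⟩ := hσH
    have hτE : ∀ x ∈ E, τ x = σ x := by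
      intro x hx
      have := congrArg (fun g : E ≃ₐ[ℚ_[p]] E => ((g ⟨x, hx⟩ : E) : Ω)) hτσ
      simpa only [AlgEquiv.restrictNormalHom_apply] using this
    have hτζ : τ ζ = ζ := by rw [hτE ζ hζE, hσζ]
    have hΨτ : Ψ τ = 1 := map_eq_one_of_fixes_zeta Ψ hm' hB E hEN hNE.le hζ hτ hτζ
    have hmem : τ⁻¹ * σ ∈ Ψ.ker := by
      rw [← hNE, IntermediateField.mem_fixingSubgroup_iff]
      intro x hx
      rw [AlgEquiv.mul_apply, ← hτE x hx]
      change τ.symm (τ x) = x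
      exact τ.symm_apply_apply x
    have hΨσ : Ψ σ = 1 := by
      have h1 : σ = τ * (τ⁻¹ * σ) := by rw [mul_inv_cancel_left]
      rw [h1, map_mul, hΨτ, MonoidHom.mem_ker.mp hmem, one_mul]
    exact MonoidHom.mem_ker.mpr (((hker σ).mp (MonoidHom.mem_ker.mpr hΨσ)).1)

end Fermat.Agent.S56.Flat.TameChar.Main
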