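import Fermat.Agent.S56.Flat.TameChar.Basic

/-!
# S56, block (a3) `Flat`, leaf `TameChar` (TI): the tame character of a finite normal subextension

`E` a finite subextension of `Ω / ℚ_p`, `ϖ₀ ∈ E` an element whose norm generates the value group.

* `eq_of_moves_uniformizer` (tame injectivity): an element `σ` which is inertial on `E`, stabilises
  `E`, has prime-to-`p` order on `E` and satisfies `σ ϖ₀ ≡ ϖ₀` acts trivially on `E`.
* `moves_pow_pred` : if `τ` in inertia commutes with every `γ` as an operator on `E` (e.g. `E / ℚ_p`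
  abelian), then `τ ϖ₀ / ϖ₀` is congruent to a `(p-1)`-th root of unity: `Moves τ (ϖ₀ ^ (p - 1))`.
* `exists_norm_eq_zpow_of_moves` (averaging): if inertia has prime-to-`p` order on the normal
  extension `E` and `Moves τ y` for every `τ` in inertia, `y ∈ E`, then `‖y‖ ∈ p ^ ℤ`.
-/

set_option autoImplicit false

noncomputable section

namespace Fermat.Agent.S56.Flat.TameChar.Tame

open Fermat.Agent.CFT.LocalBridge Fermat.Agent.CFT.Local.PadicAlgClLocal
  Fermat.Agent.S56.Flat.TameChar.Basic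

variable {p : ℕ} [Fact p.Prime]

local notation "Ω" => PadicAlgCl p

theorem pow_succ_apply (σ : LocGal p) (k : ℕ) (x : Ω) : (σ ^ (k + 1)) x = σ ((σ ^ k) x) := by
  rw [pow_succ', AlgEquiv.mul_apply]

/-- Elements which are inertial on `E` and move a uniformiser of `E` by a strictly smaller amount
move every non-zero element of `E` by a strictly smaller amount. -/
theorem moves_of_moves_uniformizer (E : IntermediateField ℚ_[p] Ω)
    {σ : LocGal p} (hσ : ∀ x ∈ E, ‖x‖ = 1 → Moves σ x)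
    {ϖ₀ : Ω} (hϖE : ϖ₀ ∈ E) (hval : ∀ x ∈ E, x ≠ 0 → ∃ k : ℤ, ‖x‖ = ‖ϖ₀‖ ^ k)
    (hmov : Moves σ ϖ₀) {x : Ω} (hx : x ∈ E) (hx0 : x ≠ 0) : Moves σ x := by
  obtain ⟨k, hk⟩ := hval x hx hx0
  have hϖ0 : ϖ₀ ≠ 0 := hmov.ne_zero
  have hpow0 : ϖ₀ ^ k ≠ 0 := zpow_ne_zero k hϖ0
  have hwE : x * (ϖ₀ ^ k)⁻¹ ∈ E := mul_mem hx (inv_mem (zpow_mem hϖE k))
  have hw1 : ‖x * (ϖ₀ ^ k)⁻¹‖ = 1 := by
    rw [norm_mul, norm_inv, norm_zpow, hk]
    exact mul_inv_cancel₀ (zpow_ne_zero k (norm_pos_iff.mpr hϖ0).ne')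
  have h : x = ϖ₀ ^ k * (x * (ϖ₀ ^ k)⁻¹) := by field_simp
  rw [h]
  exact (hmov.zpow k).mul (hσ _ hwE hw1)

/-- **Tame injectivity.**  `σ` inertial on `E` (e.g. `σ ∈ localInertia p`). -/
theorem eq_of_moves_uniformizer (E : IntermediateField ℚ_[p] Ω)
    {σ : LocGal p} (hσ : ∀ x ∈ E, ‖x‖ = 1 → Moves σ x) (hσE : ∀ x ∈ E, σ x ∈ E)
    {ϖ₀ : Ω} (hϖE : ϖ₀ ∈ E) (hval : ∀ x ∈ E, x ≠ 0 → ∃ k : ℤ, ‖x‖ = ‖ϖ₀‖ ^ k)
    (hmov : Moves σ ϖ₀) {m : ℕ} (hm : ¬ p ∣ m) (hpow : ∀ x ∈ E, (σ ^ m) x = x) :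
    ∀ x ∈ E, σ x = x := by
  -- every non-zero element of `E` is moved by a strictly smaller amount
  have hall : ∀ x ∈ E, x ≠ 0 → Moves σ x := fun x hx hx0 =>
    moves_of_moves_uniformizer E hσ hϖE hval hmov hx hx0
  intro x hx
  by_contra hne
  set d : Ω := σ x - x with hd
  have hd0 : d ≠ 0 := sub_ne_zero.mpr hne
  have hdE : d ∈ E := sub_mem (hσE x hx) hx
  have hdpos : 0 < ‖d‖ := norm_pos_iff.mpr hd0
  have hdmov : ‖σ d - d‖ < ‖d‖ := hall d hdE hd0
  have key : ∀ k : ℕ, ‖(σ ^ k) x - x - (k : Ω) * d‖ < ‖d‖ := by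
    intro k
    induction k with
    | zero =>
      rw [pow_zero, AlgEquiv.one_apply, sub_self, Nat.cast_zero, zero_mul, sub_zero, norm_zero]
      exact hdpos
    | succ k ih =>
      have h1 : (σ ^ (k + 1)) x - x - ((k + 1 : ℕ) : Ω) * d =
          (k : Ω) * (σ d - d) + σ ((σ ^ k) x - x - (k : Ω) * d) := by
        rw [pow_succ_apply, Nat.cast_succ]
        simp only [hd, map_sub, map_mul, map_natCast]
        ring
      rw [h1]
      refine norm_add_lt ?_ ?_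
      · rw [norm_mul]
        calc ‖(k : Ω)‖ * ‖σ d - d‖ ≤ 1 * ‖σ d - d‖ :=
              mul_le_mul_of_nonneg_right (norm_natCast_le_one k) (norm_nonneg _)
          _ = ‖σ d - d‖ := one_mul _
          _ < ‖d‖ := hdmov
      · rw [norm_locGal_apply]
        exact ih
  have := key m
  rw [hpow x hx, sub_self, zero_sub, norm_neg, norm_mul, norm_natCast_eq_one p hm, one_mul] at this
  exact lt_irrefl _ this

/-- **The tame character of an abelian extension has values in `μ_{p-1}`.** -/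
theorem moves_pow_pred (E : IntermediateField ℚ_[p] Ω)
    (hEst : ∀ (γ : LocGal p), ∀ x ∈ E, γ x ∈ E)
    {τ : LocGal p} (hτ : τ ∈ localInertia p)
    (hcomm : ∀ (γ : LocGal p), ∀ x ∈ E, (γ * τ * γ⁻¹) x = τ x)
    {ϖ₀ : Ω} (hϖE : ϖ₀ ∈ E) (hϖ0 : ϖ₀ ≠ 0) :
    Moves τ (ϖ₀ ^ (p - 1)) := by
  have hτϖ0 : τ ϖ₀ ≠ 0 := fun h => hϖ0 ((map_eq_zero τ).mp h)
  have hϖpos : 0 < ‖ϖ₀‖ := norm_pos_iff.mpr hϖ0
  set u : Ω := τ ϖ₀ / ϖ₀ with hu
  have hu1 : ‖u‖ = 1 := by
    rw [hu, norm_div, norm_locGal_apply, div_self hϖpos.ne']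
  -- `u` is fixed modulo the open unit ball by the whole Galois group
  have hγu : ∀ γ : LocGal p, ‖γ u - u‖ < 1 := by
    intro γ
    have hγϖ0 : γ ϖ₀ ≠ 0 := fun h => hϖ0 ((map_eq_zero γ).mp h)
    have hγγ : ∀ y : Ω, γ⁻¹ (γ y) = y := fun y => by
      change γ.symm (γ y) = y
      exact γ.symm_apply_apply y
    have h1 : γ (τ ϖ₀) = τ (γ ϖ₀) := by
      have := hcomm γ (γ ϖ₀) (hEst γ ϖ₀ hϖE)
      rw [AlgEquiv.mul_apply, AlgEquiv.mul_apply, hγγ] at this
      exact this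
    set w : Ω := γ ϖ₀ / ϖ₀ with hw
    have hw1 : ‖w‖ = 1 := by
      rw [hw, norm_div, norm_locGal_apply, div_self hϖpos.ne']
    have hw0 : w ≠ 0 := by
      rw [← norm_pos_iff, hw1]; exact one_pos
    have hτw0 : τ w ≠ 0 := fun h => hw0 ((map_eq_zero τ).mp h)
    have hwmov := (moves_iff_div (τ := τ) hw0).mp (moves_of_norm_eq_one hτ hw1)
    have h2 : γ u - u = u * (τ w / w - 1) := by
      have hγϖ : γ ϖ₀ = ϖ₀ * w := by rw [hw]; field_simp
      rw [hu, map_div₀, h1, hγϖ, map_mul]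
      field_simp
    rw [h2, norm_mul, hu1, one_mul]
    exact hwmov
  -- the Teichmüller representative of `u` is fixed by the Galois group
  obtain ⟨n, t, hn, ht, hut⟩ := exists_rootOfUnity_near p hu1
  have hn0 : n ≠ 0 := fun h0 => hn (h0 ▸ dvd_zero p)
  have ht1 : ‖t‖ = 1 := norm_eq_one_of_pow_eq_one p hn0 ht
  have htfix : ∀ γ : LocGal p, γ t = t := by
    intro γ
    refine eq_of_pow_eq_one_of_norm_sub_lt hn hn (by rw [← map_pow, ht, map_one]) ht ?_
    have h3 : γ t - t = (γ u - u) - γ (u - t) + (u - t) := by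
      rw [map_sub]; ring
    rw [h3]
    refine norm_add_lt (norm_sub_lt (hγu γ) ?_) hut
    rw [norm_locGal_apply]
    exact hut
  have htp : t ^ (p - 1) = 1 := pow_pred_eq_one_of_fixed hn ht htfix
  have h4 : ‖u ^ (p - 1) - 1‖ < 1 := by
    rw [← htp]
    exact norm_pow_sub_pow_lt hu1.le ht1.le hut (p - 1)
  rw [moves_iff_div (pow_ne_zero _ hϖ0), map_pow, ← div_pow]
  exact h4

/-! ### Averaging over the image of inertia -/

theorem norm_sum_lt {ι : Type*} (s : Finset ι) (f : ι → Ω) {r : ℝ} (hr : 0 < r)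
    (h : ∀ i ∈ s, ‖f i‖ < r) : ‖∑ i ∈ s, f i‖ < r := by
  classical
  induction s using Finset.induction_on with
  | empty => simpa using hr
  | insert a s ha ih =>
    rw [Finset.sum_insert ha]
    exact norm_add_lt (h a (Finset.mem_insert_self a s))
      (ih fun i hi => h i (Finset.mem_insert_of_mem hi))

/-- **Averaging.** -/
theorem exists_norm_eq_zpow_of_moves (E : IntermediateField ℚ_[p] Ω) [FiniteDimensional ℚ_[p] E]
    [Normal ℚ_[p] E] {m' : ℕ} (hm' : ¬ p ∣ m')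
    (hpow : ∀ τ ∈ localInertia p, ∀ x ∈ E, (τ ^ m') x = x)
    {y : Ω} (hyE : y ∈ E) (hy : ∀ τ ∈ localInertia p, Moves τ y) :
    ∃ k : ℤ, ‖y‖ = (p : ℝ) ^ k := by
  classical
  have hy0 : y ≠ 0 := (hy 1 (localInertia p).one_mem).ne_zero
  have hypos : 0 < ‖y‖ := norm_pos_iff.mpr hy0
  let H : Subgroup (E ≃ₐ[ℚ_[p]] E) := (localInertia p).map (AlgEquiv.restrictNormalHom E)
  have : Fintype H := Fintype.ofFinite H
  let yE : E := ⟨y, hyE⟩
  -- every element of `H` is the restriction of an element of inertia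
  have hH : ∀ h : H, ∃ τ ∈ localInertia p, ∀ x : E, ((h.1 x : E) : Ω) = τ (x : Ω) := by
    rintro ⟨h, τ, hτ, rfl⟩
    exact ⟨τ, hτ, fun x => AlgEquiv.restrictNormalHom_apply E τ x⟩
  -- `p` does not divide the order of `H`
  have hcard : ¬ p ∣ Fintype.card H := by
    intro hdvd
    obtain ⟨h, hh⟩ := exists_prime_orderOf_dvd_card p hdvd
    obtain ⟨τ, hτ, hτh⟩ := hH h
    have h1 : h ^ m' = 1 := by
      apply Subtype.ext
      rw [Subgroup.coe_pow, Subgroup.coe_one]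
      apply AlgEquiv.ext
      intro x
      apply Subtype.ext
      have hiter : ∀ k : ℕ, (((h.1 ^ k) x : E) : Ω) = (τ ^ k) (x : Ω) := by
        intro k
        induction k with
        | zero => simp
        | succ k ih =>
          rw [pow_succ', AlgEquiv.mul_apply, hτh, ih, pow_succ_apply]
      rw [hiter, hpow τ hτ _ x.2]
      rfl
    have h2 : orderOf h ∣ m' := orderOf_dvd_of_pow_eq_one h1
    rw [hh] at h2
    exact hm' h2
  set z : Ω := ∑ h : H, ((h.1 yE : E) : Ω) with hz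
  -- `z` is close to `card H • y`
  have hclose : ‖z - (Fintype.card H : Ω) * y‖ < ‖y‖ := by
    have h1 : z - (Fintype.card H : Ω) * y = ∑ h : H, (((h.1 yE : E) : Ω) - y) := by
      rw [Finset.sum_sub_distrib, Finset.sum_const, Finset.card_univ, nsmul_eq_mul]
    rw [h1]
    refine norm_sum_lt _ _ hypos fun h _ => ?_
    obtain ⟨τ, hτ, hτh⟩ := hH h
    rw [hτh]
    exact hy τ hτ
  have hnorm : ‖z‖ = ‖y‖ := by
    have h1 : ‖(Fintype.card H : Ω) * y‖ = ‖y‖ := by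
      rw [norm_mul, norm_natCast_eq_one p hcard, one_mul]
    rw [← h1] at hclose ⊢
    exact norm_eq_of_sub_lt hclose
  have hz0 : z ≠ 0 := by
    rw [← norm_pos_iff, hnorm]; exact hypos
  -- `z` is fixed by inertia
  have hfix : ∀ τ ∈ localInertia p, τ z = z := by
    intro τ hτ
    let g : H := ⟨AlgEquiv.restrictNormalHom E τ, τ, hτ, rfl⟩
    rw [hz, map_sum]
    have h1 : ∀ h : H, τ ((h.1 yE : E) : Ω) = (((g * h).1 yE : E) : Ω) := by
      intro h
      rw [Subgroup.coe_mul, AlgEquiv.mul_apply]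
      exact (AlgEquiv.restrictNormalHom_apply E τ (h.1 yE)).symm
    rw [Finset.sum_congr rfl fun h _ => h1 h]
    exact Fintype.sum_equiv (Equiv.mulLeft g) _ _ fun h => rfl
  obtain ⟨k, hk⟩ := exists_norm_eq_zpow_of_fixed hz0 hfix
  exact ⟨k, by rw [← hnorm, hk]⟩

end Fermat.Agent.S56.Flat.TameChar.Tame
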